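/-
S26 / block G (Theorem B, pure field theory, Mathlib only; architect helper187).
LEAF G-19.  Pigeonhole: if every `w ∈ V2` has a power in `V1 * V2 ^ N` then `V2 ^ (m + 1) = V1 * V2 ^ m` for `m ≫ 0`.
Proof.  `pow_mem_mono`: multiply by `w ^ (N' - N) ∈ V2 ^ (N' - N)`.
`sup_span_pow_le`: induction on the finset `s` (`Finset.induction_on`).  `s = ∅`: `V1 ^ (m + 1) = V1 * V1 ^ m ≤ V1 * V2 ^ m`.
`insert w s`: put `P := V1 ⊔ span K s` (bound `M`), `L := span K {w}` (`w ^ (N + 1) ∈ V1 * V2 ^ N`).  In the commutative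
semiring `Submodule K Ω` (`Submodule.add_eq_sup`) `(P + L) ^ n ≤ ⨆ i ≤ n, P ^ i * L ^ (n - i)` (`add_pow`, every natural number cast
is `≤ 1`; or a direct induction on `n`).  For `n = m + 1 ≥ M + N + 2` either `i ≥ M + 1`
(`P ^ i ≤ V1 * V2 ^ (i - 1)`, `L ^ (n - i) ≤ V2 ^ (n - i)`) or `n - i ≥ N + 1` (`L ^ (n - i) = span {w ^ (n - i)} ≤ V1 * V2 ^ (n - i - 1)`,
`P ^ i ≤ V2 ^ i`).   (Alternative: `Submodule.span_pow`, `Set.mem_pow` and `Fintype.exists_lt_card_fiber_of_mul_lt_card`.)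
`exists_stable_of_pow_mem`: `V2 = span K s` with `s` finite; `V1 ⊔ span K s = V2`; the inclusion `V1 * V2 ^ m ≤ V2 ^ (m + 1)` is
`Submodule.mul_le_mul_left`/`mul_le_mul'` + `pow_succ'`.
-/
import Fermat.Agent.S26.G.Basic

set_option autoImplicit false

universe u

namespace Fermat.Agent.S26.G

open Module IntermediateField

variable {K Ω : Type u} [Field K] [Field Ω] [Algebra K Ω]

theorem pow_mem_mono (V1 V2 : Submodule K Ω) {w : Ω} (hw : w ∈ V2) {N N' : ℕ} (hN : N ≤ N')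
    (h : w ^ (N + 1) ∈ V1 * V2 ^ N) : w ^ (N' + 1) ∈ V1 * V2 ^ N' := by
  obtain ⟨d, rfl⟩ := Nat.exists_eq_add_of_le hN
  have h1 : w ^ (N + d + 1) = w ^ (N + 1) * w ^ d := by rw [← pow_add]; congr 1; omega
  rw [h1, pow_add, ← mul_assoc]
  exact Submodule.mul_mem_mul h (Submodule.pow_mem_pow V2 hw d)

/-- binomial expansion, as an upper bound. -/
private theorem pigeon_sup_pow_le (P L T : Submodule K Ω) (n : ℕ) :
    ∀ Q : Submodule K Ω, (∀ i j, i + j = n → Q * P ^ i * L ^ j ≤ T) → Q * (P ⊔ L) ^ n ≤ T := by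
  induction n with
  | zero =>
    intro Q hQ
    have := hQ 0 0 rfl
    simpa using this
  | succ n ih =>
    intro Q hQ
    rw [pow_succ', ← mul_assoc, Submodule.mul_sup, Submodule.sup_mul]
    refine sup_le (ih _ fun i j hij => ?_) (ih _ fun i j hij => ?_)
    · have := hQ (i + 1) j (by omega)
      rwa [pow_succ', ← mul_assoc] at this
    · have := hQ i (j + 1) (by omega)
      rwa [pow_succ', ← mul_assoc, mul_right_comm Q] at this

/-- the inductive step of the pigeonhole. -/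
private theorem pigeon_step (V1 V2 P L : Submodule K Ω) (hP : P ≤ V2) (hL : L ≤ V2) (M N : ℕ)
    (hPM : ∀ m, M ≤ m → P ^ (m + 1) ≤ V1 * V2 ^ m)
    (hLN : ∀ m, N ≤ m → L ^ (m + 1) ≤ V1 * V2 ^ m) (m : ℕ) (hm : M + N + 1 ≤ m) :
    (P ⊔ L) ^ (m + 1) ≤ V1 * V2 ^ m := by
  have key := pigeon_sup_pow_le P L (V1 * V2 ^ m) (m + 1) 1 ?_
  · rwa [one_mul] at key
  intro i j hij
  rw [one_mul]
  by_cases hi : M + 1 ≤ i
  · obtain ⟨i', rfl⟩ : ∃ i', i = i' + 1 := ⟨i - 1, by omega⟩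
    have hm' : m = i' + j := by omega
    calc P ^ (i' + 1) * L ^ j ≤ (V1 * V2 ^ i') * V2 ^ j :=
          mul_le_mul' (hPM i' (by omega)) (pow_le_pow_left' hL j)
      _ = V1 * V2 ^ m := by rw [mul_assoc, ← pow_add, hm']
  · obtain ⟨j', rfl⟩ : ∃ j', j = j' + 1 := ⟨j - 1, by omega⟩
    have hm' : m = j' + i := by omega
    calc P ^ i * L ^ (j' + 1) ≤ V2 ^ i * (V1 * V2 ^ j') :=
          mul_le_mul' (pow_le_pow_left' hP i) (hLN j' (by omega))
      _ = V1 * V2 ^ m := by rw [mul_comm, mul_assoc, ← pow_add, hm']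

theorem sup_span_pow_le (V1 V2 : Submodule K Ω) (hle : V1 ≤ V2)
    (h : ∀ w ∈ V2, ∃ N : ℕ, w ^ (N + 1) ∈ V1 * V2 ^ N) (s : Finset Ω)
    (hs : ∀ w ∈ s, w ∈ V2) :
    ∃ M : ℕ, ∀ m, M ≤ m → (V1 ⊔ Submodule.span K (s : Set Ω)) ^ (m + 1) ≤ V1 * V2 ^ m := by
  classical
  induction s using Finset.induction_on with
  | empty =>
    refine ⟨0, fun m _ => ?_⟩
    rw [Finset.coe_empty, Submodule.span_empty, sup_bot_eq, pow_succ']
    exact mul_le_mul' le_rfl (pow_le_pow_left' hle m)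
  | insert w s _ ih =>
    obtain ⟨M, hM⟩ := ih fun x hx => hs x (Finset.mem_insert_of_mem hx)
    have hw : w ∈ V2 := hs w (Finset.mem_insert_self w s)
    obtain ⟨N, hN⟩ := h w hw
    refine ⟨M + N + 1, fun m hm => ?_⟩
    have e : V1 ⊔ Submodule.span K ((insert w s : Finset Ω) : Set Ω) =
        (V1 ⊔ Submodule.span K (s : Set Ω)) ⊔ Submodule.span K {w} := by
      rw [Finset.coe_insert, Submodule.span_insert, sup_assoc, sup_comm (Submodule.span K {w})]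
    rw [e]
    refine pigeon_step V1 V2 _ _ (sup_le hle ?_) ?_ M N hM ?_ m hm
    · exact Submodule.span_le.2 fun x hx => hs x (Finset.mem_insert_of_mem hx)
    · exact (Submodule.span_singleton_le_iff_mem w V2).2 hw
    · intro m' hm'
      rw [Submodule.span_pow, Set.singleton_pow, Submodule.span_singleton_le_iff_mem]
      exact pow_mem_mono V1 V2 hw hm' hN

theorem exists_stable_of_pow_mem (V1 V2 : Submodule K Ω) [FiniteDimensional K V2] (hle : V1 ≤ V2)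
    (h : ∀ w ∈ V2, ∃ N : ℕ, w ^ (N + 1) ∈ V1 * V2 ^ N) :
    ∃ m0 : ℕ, ∀ m, m0 ≤ m → V2 ^ (m + 1) = V1 * V2 ^ m := by
  obtain ⟨s, hs⟩ : V2.FG := (Submodule.fg_iff_finiteDimensional V2).2 inferInstance
  have hs' : ∀ w ∈ s, w ∈ V2 := fun w hw => hs ▸ Submodule.subset_span hw
  obtain ⟨M, hM⟩ := sup_span_pow_le V1 V2 hle h s hs'
  refine ⟨M, fun m hm => le_antisymm ?_ ?_⟩
  · have := hM m hm
    rwa [hs, sup_eq_right.2 hle] at this
  · rw [pow_succ']
    exact mul_le_mul' hle le_rfl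

end Fermat.Agent.S26.G
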