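/-
S26 / block G (Theorem B, pure field theory, Mathlib only; architect helper187).
LEAF G-17.  Algebra behind G2: `R = K[v / w : v ∈ V1]`, `S = {v / w}`; if `1 ∈ R S` then `w ^ (N + 1) ∈ V1 * V2 ^ N`.
Proof.  `exists_mul_pow_mem`: `Algebra.adjoin_induction`: generator `v / w`: `N = 1`; constants: `N = 0`
(`pow_zero`, `Submodule.algebraMap_mem`/`Submodule.mem_one`); sums: `N + N'` (multiply by `w ^ N' ∈ V2 ^ N'`,
`Submodule.pow_mem_pow`, `pow_add`, `Submodule.mul_mem_mul`); products: `N + N'`.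
`exists_pow_mem_of_one_mem`: show by `Submodule.span_induction` that every
`x ∈ span R S` satisfies `∃ N, x * w ^ (N + 1) ∈ V1 * V2 ^ N`
(generator `v / w`: `N = 0`; `r • x`: add the exponents; sums: raise both to a common exponent by multiplying with
powers of `w ∈ V2`; zero).
-/
import Fermat.Agent.S26.G.Basic

set_option autoImplicit false

universe u

namespace Fermat.Agent.S26.G

open Module IntermediateField

variable {K Ω : Type u} [Field K] [Field Ω] [Algebra K Ω]

theorem exists_mul_pow_mem (V1 V2 : Submodule K Ω) (hle : V1 ≤ V2) {w : Ω} (hw : w ∈ V2)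
    (hw0 : w ≠ 0) {r : Ω} (hr : r ∈ Algebra.adjoin K ((fun v => v / w) '' (V1 : Set Ω))) :
    ∃ N : ℕ, r * w ^ N ∈ V2 ^ N := by
  induction hr using Algebra.adjoin_induction with
  | mem x hx =>
    obtain ⟨v, hv, rfl⟩ := hx
    refine ⟨1, ?_⟩
    simp only [pow_one]
    rw [div_mul_cancel₀ _ hw0]
    exact hle hv
  | algebraMap c =>
    refine ⟨0, ?_⟩
    rw [pow_zero, pow_zero, mul_one]
    exact Submodule.algebraMap_mem c
  | add x y _ _ hx hy =>
    obtain ⟨N, hN⟩ := hx
    obtain ⟨N', hN'⟩ := hy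
    refine ⟨N + N', ?_⟩
    have e : (x + y) * w ^ (N + N') = (x * w ^ N) * w ^ N' + w ^ N * (y * w ^ N') := by
      rw [pow_add]; ring
    rw [e, pow_add]
    exact add_mem (Submodule.mul_mem_mul hN (Submodule.pow_mem_pow V2 hw N'))
      (Submodule.mul_mem_mul (Submodule.pow_mem_pow V2 hw N) hN')
  | mul x y _ _ hx hy =>
    obtain ⟨N, hN⟩ := hx
    obtain ⟨N', hN'⟩ := hy
    refine ⟨N + N', ?_⟩
    have e : (x * y) * w ^ (N + N') = (x * w ^ N) * (y * w ^ N') := by
      rw [pow_add]; ring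
    rw [e, pow_add]
    exact Submodule.mul_mem_mul hN hN'

theorem exists_pow_mem_of_one_mem (V1 V2 : Submodule K Ω) (hle : V1 ≤ V2) {w : Ω} (hw : w ∈ V2)
    (hw0 : w ≠ 0)
    (h1 : (1 : Ω) ∈ Submodule.span (Algebra.adjoin K ((fun v => v / w) '' (V1 : Set Ω)))
      ((fun v => v / w) '' (V1 : Set Ω))) :
    ∃ N : ℕ, w ^ (N + 1) ∈ V1 * V2 ^ N := by
  have key : ∀ x : Ω, x ∈ Submodule.span (Algebra.adjoin K ((fun v => v / w) '' (V1 : Set Ω)))
      ((fun v => v / w) '' (V1 : Set Ω)) → ∃ N : ℕ, x * w ^ (N + 1) ∈ V1 * V2 ^ N := by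
    intro x hx
    induction hx using Submodule.span_induction with
    | mem x hx =>
      obtain ⟨v, hv, rfl⟩ := hx
      refine ⟨0, ?_⟩
      simp only [zero_add, pow_one, pow_zero, mul_one]
      rw [div_mul_cancel₀ _ hw0]
      exact hv
    | zero => exact ⟨0, by rw [zero_mul]; exact zero_mem _⟩
    | add x y _ _ hx hy =>
      obtain ⟨N, hN⟩ := hx
      obtain ⟨N', hN'⟩ := hy
      refine ⟨N + N', ?_⟩
      have e : (x + y) * w ^ (N + N' + 1) =
          (x * w ^ (N + 1)) * w ^ N' + (y * w ^ (N' + 1)) * w ^ N := by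
        ring
      rw [e]
      refine add_mem ?_ ?_
      · rw [pow_add, ← mul_assoc]
        exact Submodule.mul_mem_mul hN (Submodule.pow_mem_pow V2 hw N')
      · rw [add_comm N N', pow_add, ← mul_assoc]
        exact Submodule.mul_mem_mul hN' (Submodule.pow_mem_pow V2 hw N)
    | smul r x _ hx =>
      obtain ⟨N, hN⟩ := hx
      obtain ⟨N', hN'⟩ := exists_mul_pow_mem V1 V2 hle hw hw0 r.2
      refine ⟨N + N', ?_⟩
      have e : (r • x) * w ^ (N + N' + 1) = (x * w ^ (N + 1)) * ((r : Ω) * w ^ N') := by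
        rw [Subalgebra.smul_def, smul_eq_mul]
        ring
      rw [e, pow_add, ← mul_assoc]
      exact Submodule.mul_mem_mul hN hN'
  obtain ⟨N, hN⟩ := key 1 h1
  exact ⟨N, by rwa [one_mul] at hN⟩

end Fermat.Agent.S26.G
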