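/-
S26 / block G (Theorem B, pure field theory, Mathlib only; architect helper187).
LEAF G-18.  The valuative hypothesis gives `w ^ (N + 1) ∈ V1 * V2 ^ N`.
Proof.  `w = 0` trivial.  Otherwise by `exists_pow_mem_of_one_mem` it suffices that `1 ∈ span R S`
(`R := Algebra.adjoin K S`, `S := (· / w) '' V1`).  If not, the ideal `I := Ideal.span {x : R.toSubring | (x : Ω) ∈ S}` of
`A := R.toSubring` is proper (if `1 ∈ I`, map along the `A`-linear inclusion `A → Ω`, `Submodule.span_induction`), and Mathlib's
`Ideal.image_subset_nonunits_valuationSubring I hI` (Mathlib/RingTheory/Valuation/LocalSubring.lean) gives a valuation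
subring `B ⊇ A` in which every `v / w` is a non unit.  `B` contains the constants.  `hval B _ w hw` gives `v ∈ V1`, `v ≠ 0`,
`w / v ∈ B`; but `v / w ∈ B.nonunits` means `B.valuation (v / w) < 1` (`ValuationSubring.mem_nonunits_iff`) while
`B.valuation (w / v) ≤ 1` (`ValuationSubring.valuation_le_one_iff`), and the product is `1`: contradiction.
-/
import Fermat.Agent.S26.G.Val.Ideal

set_option autoImplicit false

universe u

namespace Fermat.Agent.S26.G

open Module IntermediateField

variable {K Ω : Type u} [Field K] [Field Ω] [Algebra K Ω]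

theorem exists_pow_mem (V1 V2 : Submodule K Ω) (hle : V1 ≤ V2)
    (hval : ∀ O : ValuationSubring Ω, ContainsConst K O → ∀ w ∈ V2, ∃ v ∈ V1, v ≠ 0 ∧ w / v ∈ O)
    {w : Ω} (hw : w ∈ V2) : ∃ N : ℕ, w ^ (N + 1) ∈ V1 * V2 ^ N := by
  by_cases hw0 : w = 0
  · refine ⟨0, ?_⟩
    rw [hw0, zero_add, pow_one]
    exact zero_mem _
  apply exists_pow_mem_of_one_mem V1 V2 hle hw hw0
  by_contra h1
  set S : Set Ω := (fun v => v / w) '' (V1 : Set Ω) with hS
  set R := Algebra.adjoin K S with hR
  let A : Subring Ω := R.toSubring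
  let I : Ideal A := Ideal.span {x : A | (x : Ω) ∈ S}
  have hI : I ≠ ⊤ := by
    intro htop
    apply h1
    have h1I : (1 : A) ∈ I := by
      rw [htop]
      trivial
    have key : ∀ x : A, x ∈ I → (x : Ω) ∈ Submodule.span R S := by
      intro x hx
      induction hx using Submodule.span_induction with
      | mem x hx => exact Submodule.subset_span hx
      | zero => exact zero_mem _
      | add x y _ _ hx hy => exact add_mem hx hy
      | smul r x _ hx => exact Submodule.smul_mem _ (⟨r.1, r.2⟩ : R) hx
    exact key 1 h1I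
  obtain ⟨B, hAB, hBI⟩ := Ideal.image_subset_nonunits_valuationSubring I hI
  have hconst : ContainsConst K B := fun a => hAB (R.algebraMap_mem a)
  obtain ⟨v, hv, hv0, hwv⟩ := hval B hconst w hw
  have hvS : v / w ∈ S := ⟨v, hv, rfl⟩
  have hvR : v / w ∈ R := Algebra.subset_adjoin hvS
  have hnon : v / w ∈ B.nonunits := hBI ⟨⟨v / w, hvR⟩, Ideal.subset_span hvS, rfl⟩
  rw [ValuationSubring.mem_nonunits_iff] at hnon
  have hle1 : B.valuation (w / v) ≤ 1 := (B.valuation_le_one_iff _).2 hwv
  have hprod : B.valuation (v / w) * B.valuation (w / v) = 1 := by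
    rw [← map_mul, div_mul_div_comm, mul_comm v w, div_self (mul_ne_zero hw0 hv0), map_one]
  have hlt : B.valuation (v / w) * B.valuation (w / v) < 1 :=
    lt_of_le_of_lt (mul_le_of_le_one_right' hle1) hnon
  exact absurd hprod hlt.ne

end Fermat.Agent.S26.G
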