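/-
S26 / block G (Theorem B, pure field theory, Mathlib only; architect helper187).
G2 (assembly, proved).
-/
import Fermat.Agent.S26.G.Val.Pow
import Fermat.Agent.S26.G.Val.Pigeon

set_option autoImplicit false

universe u

namespace Fermat.Agent.S26.G

open Module IntermediateField

variable {K Ω : Type u} [Field K] [Field Ω] [Algebra K Ω]

/-- **G2.** -/
theorem exists_stable (V1 V2 : Submodule K Ω) [FiniteDimensional K V2] (hle : V1 ≤ V2)
    (hval : ∀ O : ValuationSubring Ω, ContainsConst K O →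
      ∀ w ∈ V2, ∃ v ∈ V1, v ≠ 0 ∧ w / v ∈ O) :
    ∃ m0 : ℕ, ∀ m, m0 ≤ m → V2 ^ (m + 1) = V1 * V2 ^ m :=
  exists_stable_of_pow_mem V1 V2 hle fun _ hw => exists_pow_mem V1 V2 hle hval hw

end Fermat.Agent.S26.G
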